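/-
P-CFT block LOC-6, row 756 (helper98): **[BR-FIN]** finite level versus level cochains, in
helper24's interface (`Fermat.Agent.H24.Brauer.Interfaces`):
`FinToLvlStatement`, `InflCompStatement`, `InflFinInjStatement` (all unconditional), assembled
from helper75's tower lemmas (`Fermat.Agent.H75.Inf2Tower`) and helper57's Hilbert 90 for level
cocycles (`Fermat.Agent.H57.CFT.h90Lvl`).
-/
import Fermat.Agent.H24.Brauer.Interfaces
import Fermat.Agent.H75.Inf2Tower
import Fermat.Agent.H57.CFT.H90Lvl

set_option autoImplicit false
set_option linter.style.haveILetI false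
set_option synthInstance.maxHeartbeats 400000

namespace Fermat.Agent.H98.Brauer

open Fermat.Agent.H13.Cft Fermat.Agent.H78.CFT Fermat.Agent.H61.CFT Fermat.Agent.H24.Brauer
  groupCohomology

/-- **[BR-FIN a]** a finite level coboundary inflates to a level coboundary. -/
theorem finToLvl : FinToLvlStatement := fun E L _ _ c hc =>
  Fermat.Agent.H75.Inf2.isLvlMulCoboundary_inflE E L c hc

/-- `resFL` is compatible with the restrictions from `G_E`. -/
theorem resFL_resEF (E : IntermediateField ℚ Qb) (F L : IntermediateField E Qb) (h : F ≤ L)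
    [Normal E F] [Normal E L] (g : E.fixingSubgroup) :
    resFL E F L h (resEF E L g) = resEF E F g := by
  ext x
  rw [resFL_apply, Fermat.Agent.H75.Inf2.resEF_apply, Fermat.Agent.H75.Inf2.resEF_apply]
  rfl

theorem coe_unitsFL (E : IntermediateField ℚ Qb) (F L : IntermediateField E Qb) (h : F ≤ L)
    (u : Fˣ) : (((unitsFL E F L h u : Lˣ) : L) : Qb) = ((u : F) : Qb) := rfl

/-- **[BR-FIN b]** inflation to `G_E` factors through the finite level inflation. -/
theorem inflComp : InflCompStatement := fun E F L h _ _ _ _ c x =>
  congrFun (Fermat.Agent.H75.Inf2.inflE_pullCochain E F L (resFL E F L h)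
    (resFL_resEF E F L h) (unitsFL E F L h) (coe_unitsFL E F L h) c) x

/-- **[BR-FIN c]** finite level inflation is injective on classes. -/
theorem inflFinInj : InflFinInjStatement := fun E F L h _ _ _ _ c hc hcob =>
  Fermat.Agent.H75.Inf2.isMulCoboundary_of_pullCochain E F L Fermat.Agent.H57.CFT.h90Lvl
    (resFL E F L h) (resFL_resEF E F L h) (unitsFL E F L h) (coe_unitsFL E F L h) c hc hcob

end Fermat.Agent.H98.Brauer
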