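/-
P-CFT block LOC-6, row 753 (helper98), part 1: transport of the Galois group and of
`H²(Gal(F/K), Fˣ)` along compatible ring isomorphisms `K ≃+* K'`, `F ≃+* F'`.  Mathlib only.
-/
import Mathlib

set_option autoImplicit false
set_option linter.style.haveILetI false
set_option linter.unusedSectionVars false

namespace Fermat.Agent.H98.Brauer

open CategoryTheory groupCohomology

section general

variable {K F K' F' : Type} [Field K] [Field F] [Algebra K F] [Field K'] [Field F']
  [Algebra K' F'] (eK : K ≃+* K') (eF : F ≃+* F')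
  (h : ∀ k : K, eF (algebraMap K F k) = algebraMap K' F' (eK k))

include h in
theorem transport_symm_compat (k' : K') :
    eF.symm (algebraMap K' F' k') = algebraMap K F (eK.symm k') := by
  apply eF.injective
  rw [eF.apply_symm_apply, h, eK.apply_symm_apply]

include h in
theorem transport_comp_eq :
    (algebraMap K' F').comp (eK : K →+* K') = (eF : F →+* F').comp (algebraMap K F) := by
  ext k
  exact (h k).symm

/-- Conjugation of an automorphism by `eF`. -/
noncomputable def galMap (σ : F ≃ₐ[K] F) : F' ≃ₐ[K'] F' :=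
  AlgEquiv.ofRingEquiv (f := (eF.symm.trans σ.toRingEquiv).trans eF) (fun k' => by
    show eF (σ (eF.symm (algebraMap K' F' k'))) = algebraMap K' F' k'
    rw [transport_symm_compat eK eF h, σ.commutes, h, eK.apply_symm_apply])

@[simp] theorem galMap_apply (σ : F ≃ₐ[K] F) (x : F') :
    galMap eK eF h σ x = eF (σ (eF.symm x)) := rfl

/-- `Gal(F/K) ≃* Gal(F'/K')`. -/
noncomputable def galCongr : (F ≃ₐ[K] F) ≃* (F' ≃ₐ[K'] F') where
  toFun := galMap eK eF h
  invFun := galMap eK.symm eF.symm (fun k' => transport_symm_compat eK eF h k')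
  left_inv σ := by
    ext x
    simp [galMap_apply]
  right_inv σ := by
    ext x
    simp [galMap_apply]
  map_mul' σ τ := by
    ext x
    simp [galMap_apply, AlgEquiv.mul_apply]

@[simp] theorem galCongr_apply (σ : F ≃ₐ[K] F) (x : F') :
    galCongr eK eF h σ x = eF (σ (eF.symm x)) := rfl

/-- `Fˣ ≃ F'ˣ`, additively and `ℤ`-linearly. -/
noncomputable def unitsLin : Additive Fˣ ≃ₗ[ℤ] Additive F'ˣ :=
  (MulEquiv.toAdditive (Units.mapEquiv eF.toMulEquiv)).toIntLinearEquiv

theorem unitsLin_apply (u : Additive Fˣ) :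
    (((Additive.toMul (unitsLin eF u) : F'ˣ)) : F') = eF ((Additive.toMul u : Fˣ) : F) := rfl

/-- `H²(Gal(F/K), Fˣ) ≅ H²(Gal(F'/K'), F'ˣ)`. -/
noncomputable def h2CongrIso :
    groupCohomology.H2 (Rep.ofAlgebraAutOnUnits K F) ≅
      groupCohomology.H2 (Rep.ofAlgebraAutOnUnits K' F') :=
  mapIso (A := Rep.ofAlgebraAutOnUnits K' F') (B := Rep.ofAlgebraAutOnUnits K F)
    (galCongr eK eF h) (unitsLin eF)
    (by
      intro g
      ext x
      apply Additive.toMul.injective
      apply Units.ext
      show eF (g ((Additive.toMul x : Fˣ) : F)) =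
        eF (g (eF.symm (eF ((Additive.toMul x : Fˣ) : F))))
      rw [eF.symm_apply_apply]) 2

/-- `H²(Gal(F/K), Fˣ) ≃+ H²(Gal(F'/K'), F'ˣ)`. -/
noncomputable def h2Congr :
    groupCohomology.H2 (Rep.ofAlgebraAutOnUnits K F) ≃+
      groupCohomology.H2 (Rep.ofAlgebraAutOnUnits K' F') :=
  (h2CongrIso eK eF h).toLinearEquiv.toAddEquiv

include h in
theorem transport_finite [FiniteDimensional K F] : FiniteDimensional K' F' :=
  Module.Finite.of_equiv_equiv eK eF (transport_comp_eq eK eF h)

include h in
theorem transport_isGalois [IsGalois K F] : IsGalois K' F' :=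
  IsGalois.of_equiv_equiv (f := eK) (g := eF) (transport_comp_eq eK eF h)

end general

end Fermat.Agent.H98.Brauer
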