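/-
P-CFT block LOC-6, row 753 (helper98), part 2: **[BR-CONC]** concretization of a local pair
(`Fermat.Agent.H24.Brauer.ConcretizeStatement`): the images `E₀ = j(K)`, `F₁ = j(F)` in `ℚ̄`,
with the induced isomorphisms of Galois groups and of `H²`.
-/
import Fermat.Agent.H24.Brauer.Interfaces
import Fermat.Agent.H98.Brauer.FieldTransport

set_option autoImplicit false
set_option linter.style.haveILetI false
set_option linter.unusedSectionVars false
set_option synthInstance.maxHeartbeats 400000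

namespace Fermat.Agent.H98.Brauer

open Fermat.Agent.H78.CFT Fermat.Agent.H81.Local Fermat.Agent.H24.Brauer

section conc

variable {K F : Type} [Field K] [Field F] [Algebra K F] (j : F →+* Qb)
  (E₀ : IntermediateField ℚ Qb) (hE : ∀ x : Qb, x ∈ E₀ ↔ ∃ k : K, j (algebraMap K F k) = x)

/-- `K → E₀ = j(K)`. -/
noncomputable def concK : K →+* E₀ :=
  (j.comp (algebraMap K F)).codRestrict E₀ (fun k => (hE _).2 ⟨k, rfl⟩)

/-- `K ≃ E₀ = j(K)`. -/
noncomputable def concKEquiv : K ≃+* E₀ :=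
  RingEquiv.ofBijective (concK j E₀ hE) ⟨(concK j E₀ hE).injective, fun x => by
    obtain ⟨k, hk⟩ := (hE x).1 x.2
    exact ⟨k, Subtype.ext hk⟩⟩

/-- The image `j(F)` as an intermediate field of `ℚ̄ / E₀`. -/
noncomputable def concF : IntermediateField E₀ Qb :=
  Subfield.toIntermediateField j.fieldRange (fun x => by
    obtain ⟨k, hk⟩ := (hE x).1 x.2
    exact ⟨algebraMap K F k, hk⟩)

theorem mem_concF (x : Qb) : x ∈ concF j E₀ hE ↔ ∃ y : F, j y = x := Iff.rfl

/-- `F → j(F)`. -/
noncomputable def concFHom : F →+* concF j E₀ hE :=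
  j.codRestrict (concF j E₀ hE) (fun y => ⟨y, rfl⟩)

/-- `F ≃ j(F)`. -/
noncomputable def concFEquiv : F ≃+* concF j E₀ hE :=
  RingEquiv.ofBijective (concFHom j E₀ hE) ⟨(concFHom j E₀ hE).injective, fun x => by
    obtain ⟨y, hy⟩ := x.2
    exact ⟨y, Subtype.ext hy⟩⟩

theorem conc_compat (k : K) :
    concFEquiv j E₀ hE (algebraMap K F k) =
      algebraMap E₀ (concF j E₀ hE) (concKEquiv j E₀ hE k) :=
  Subtype.ext rfl

end conc

/-- **[BR-CONC]** concretization of a local pair. -/
theorem concretize : ConcretizeStatement := by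
  intro q _ K F _ _ _ _ _ j hpair
  obtain ⟨E₀, hloc, hE⟩ := hpair
  exact ⟨E₀, hloc, concF j E₀ hE,
    transport_finite (concKEquiv j E₀ hE) (concFEquiv j E₀ hE) (conc_compat j E₀ hE),
    transport_isGalois (concKEquiv j E₀ hE) (concFEquiv j E₀ hE) (conc_compat j E₀ hE),
    fun x => mem_concF j E₀ hE x,
    ⟨galCongr (concKEquiv j E₀ hE) (concFEquiv j E₀ hE) (conc_compat j E₀ hE)⟩,
    ⟨h2Congr (concKEquiv j E₀ hE) (concFEquiv j E₀ hE) (conc_compat j E₀ hE)⟩⟩

end Fermat.Agent.H98.Brauer
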